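import Mathlib
import Fermat.Agent.P2.Defs
import Fermat.Agent.JAN.AnnFinal
import Fermat.Agent.CMP.CharExtend
import Fermat.Agent.CMP.Newness

/-!
# Block 7b: points of order `2^k` for all `k` give modularity

If for all `k` there is a point of exact order `2^k` of `J₀(N)` on which `T_ℓ` acts as `a ℓ` (for
`ℓ ∤ N`, `ℓ ≤ B`), then `T_ℓ ↦ a ℓ` is a character of the anemic Hecke algebra of `S₂(Γ₀(N))`.
-/

set_option autoImplicit false
set_option linter.style.haveILetI false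

noncomputable section

open ModularCurve CongruenceSubgroup
open Fermat.Agent.S30Wiring

namespace Fermat.Agent.P2.End

/-- the eigensystem on the anemic polynomial algebra -/
def lamA (S : Finset ℕ) (a : ℕ → ℤ) : AnemicAlg S →ₐ[ℤ] ℤ :=
  MvPolynomial.aeval fun ℓ => a ℓ.1

theorem lamA_X (S : Finset ℕ) (a : ℕ → ℤ) (ℓ : {ℓ : Nat.Primes // (ℓ : ℕ) ∉ S}) :
    lamA S a (MvPolynomial.X ℓ) = a ℓ.1 := MvPolynomial.aeval_X _ _

variable {N : ℕ} [NeZero N]

/-- every Hecke polynomial acts through the eigensystem on the points of `EltAt`. -/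
theorem exists_bound {S : Finset ℕ} (hNS : ∀ q : ℕ, q.Prime → q ∣ N → q ∈ S) (a : ℕ → ℤ)
    (t : AnemicAlg S) : ∃ B : ℕ, ∀ y : JZero N,
      (∀ ℓ : Nat.Primes, ¬ (ℓ : ℕ) ∣ N → (ℓ : ℕ) ≤ B → heckeOperatorBar N ℓ y = a ℓ • y) →
      letI := heckeModuleBar N
      anemicIncl S t • y = lamA S a t • y := by
  letI := heckeModuleBar N
  have hcomm := JAN.PsiDegree.heckeOperatorsCommuteBar N
  induction t using MvPolynomial.induction_on with
  | C c =>
    refine ⟨0, fun y _ => ?_⟩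
    rw [MvPolynomial.algHom_C, MvPolynomial.algHom_C, eq_intCast, Int.cast_smul_eq_zsmul,
      eq_intCast, Int.cast_smul_eq_zsmul]
  | add p q hp hq =>
    obtain ⟨B, hB⟩ := hp
    obtain ⟨C, hC⟩ := hq
    refine ⟨max B C, fun y hy => ?_⟩
    rw [map_add, map_add, add_smul, add_zsmul,
      hB y fun ℓ h h' => hy ℓ h (h'.trans (le_max_left _ _)),
      hC y fun ℓ h h' => hy ℓ h (h'.trans (le_max_right _ _))]
  | mul_X p ℓ hp =>
    obtain ⟨B, hB⟩ := hp
    have hℓN : ¬ ((ℓ.1 : Nat.Primes) : ℕ) ∣ N := fun h => ℓ.2 (hNS _ ℓ.1.2 h)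
    refine ⟨max B ℓ.1, fun y hy => ?_⟩
    rw [map_mul, map_mul, mul_smul, JAN.Annihilate.anemicIncl_X,
      heckeModuleBar_heckeGen_smul hcomm, hy ℓ.1 hℓN (le_max_right _ _), smul_comm,
      hB y fun ℓ h h' => hy ℓ h (h'.trans (le_max_left _ _)), lamA_X, smul_smul, mul_comm]

/-- the eigensystem factors through the Hecke algebra of forms -/
theorem lamA_eq_zero {S : Finset ℕ} (hNS : ∀ q : ℕ, q.Prime → q ∣ N → q ∈ S) {a : ℕ → ℤ}
    (h : ∀ k B : ℕ, EltAt N a B k) (t : AnemicAlg S) (ht : anemicEval (N := N) hNS t = 0) :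
    lamA S a t = 0 := by
  letI := heckeModuleBar N
  obtain ⟨B, hB⟩ := exists_bound hNS a t
  have hdvd : ∀ k : ℕ, ((2 ^ k : ℕ) : ℤ) ∣ lamA S a t := by
    intro k
    obtain ⟨y, hy1, hy2, hy3⟩ := h k B
    have h1 : anemicIncl S t • y = 0 :=
      JAN.AnnFinal.smul_eq_zero_of_torsion hNS ht (n := 2 ^ k) (by positivity) hy1
    have h2 : lamA S a t • y = 0 := by
      rw [← hB y hy3]
      exact h1
    have h3 : addOrderOf y = 2 ^ k := by
      rcases Nat.eq_zero_or_pos k with rfl | hk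
      · rw [pow_zero, AddMonoid.addOrderOf_eq_one_iff]
        rwa [pow_zero, one_smul] at hy1
      · obtain ⟨m, rfl⟩ : ∃ m, k = m + 1 := ⟨k - 1, by omega⟩
        have := hy2 hk
        rw [Nat.add_sub_cancel] at this
        have hp : Fact (Nat.Prime 2) := ⟨Nat.prime_two⟩
        exact addOrderOf_eq_prime_pow this hy1
    rw [← h3]
    exact addOrderOf_dvd_iff_zsmul_eq_zero.mpr h2
  by_contra hne
  have h4 := Int.natAbs_dvd_natAbs.mpr (hdvd (lamA S a t).natAbs)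
  rw [Int.natAbs_natCast] at h4
  have h5 := Nat.le_of_dvd (Int.natAbs_pos.mpr hne) h4
  exact absurd h5 (not_le.mpr Nat.lt_two_pow_self)

/-- **Block 7b.** -/
theorem block7b : Block7bOut := by
  intro N _ a h
  set S : Finset ℕ := N.primeFactors with hS
  have hNS : ∀ q : ℕ, q.Prime → q ∣ N → q ∈ S := fun q hq hqN =>
    Nat.mem_primeFactors.mpr ⟨hq, hqN, NeZero.ne N⟩
  have hsurj : Function.Surjective (anemicEval (N := N) hNS).toRingHom :=
    CMP.Newness.anemicEval_surjective hNS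
  let χ : CuspForm.heckeAlgebra N 2 (↑S : Set ℕ) →+* ℤ :=
    RingHom.liftOfSurjective (anemicEval (N := N) hNS).toRingHom hsurj
      ⟨(lamA S a).toRingHom, fun t ht => lamA_eq_zero hNS h t ht⟩
  obtain ⟨f, hf, hfa⟩ := CMP.CharExtend.exists_eigenform_of_char ((Int.castRingHom ℂ).comp χ)
  refine ⟨f, hf, fun ℓ hℓ hℓN => ?_⟩
  have hℓS : ℓ ∉ S := fun h => hℓN (Nat.dvd_of_mem_primeFactors h)
  rw [hfa ℓ hℓ hℓN (fun h => hℓS (Finset.mem_coe.mp h)), RingHom.comp_apply]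
  have h1 : CuspForm.heckeAlgebra.T hℓ hℓN (fun h => hℓS (Finset.mem_coe.mp h)) =
      (anemicEval (N := N) hNS).toRingHom (MvPolynomial.X ⟨⟨ℓ, hℓ⟩, hℓS⟩) := by
    show _ = anemicEval (N := N) hNS (MvPolynomial.X ⟨⟨ℓ, hℓ⟩, hℓS⟩)
    rw [anemicEval, MvPolynomial.aeval_X]
  rw [h1]
  have h2 : χ ((anemicEval (N := N) hNS).toRingHom (MvPolynomial.X ⟨⟨ℓ, hℓ⟩, hℓS⟩)) = a ℓ := by
    show RingHom.liftOfSurjective _ hsurj _ _ = _
    rw [RingHom.liftOfRightInverse_comp_apply]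
    exact lamA_X S a ⟨⟨ℓ, hℓ⟩, hℓS⟩
  rw [h2]
  rfl

end Fermat.Agent.P2.End
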